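import Fermat.Agent.TWGal.Inertia
import Fermat.Agent.GalRep.Cyclo

/-!
# The cyclotomic character modulo `c` and inertia
-/

set_option autoImplicit false

noncomputable section

namespace Fermat.Agent.TWDia

open Fermat.Agent.GalRep

local notation "Qbar" => AlgebraicClosure ℚ
local notation "GQ" => Qbar ≃ₐ[ℚ] Qbar

theorem card_rou (c : ℕ) [NeZero c] : Nat.card (rootsOfUnity c Qbar) = c := by
  have : NeZero (c : Qbar) := ⟨by exact_mod_cast NeZero.ne c⟩
  exact HasEnoughRootsOfUnity.natCard_rootsOfUnity Qbar c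

theorem exists_prim (c : ℕ) [NeZero c] : ∃ ζ : Qbar, IsPrimitiveRoot ζ c := by
  have : NeZero (c : Qbar) := ⟨by exact_mod_cast NeZero.ne c⟩
  exact HasEnoughRootsOfUnity.exists_primitiveRoot Qbar c

/-- the cyclotomic character modulo `c` -/
def cycM (c : ℕ) [NeZero c] : GQ →* (ZMod c)ˣ :=
  (modularCyclotomicCharacter Qbar (card_rou c)).comp
    { toFun := fun σ => (σ : Qbar ≃+* Qbar)
      map_one' := rfl
      map_mul' := fun _ _ => rfl }

theorem cycM_spec (c : ℕ) [NeZero c] (σ : GQ) {z : Qbar} (hz : z ^ c = 1) :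
    σ z = z ^ ((cycM c σ : (ZMod c)ˣ) : ZMod c).val := by
  have h1 := modularCyclotomicCharacter.spec Qbar (card_rou c) (σ : Qbar ≃+* Qbar)
    (t := (IsUnit.of_pow_eq_one hz (NeZero.ne c)).unit) (by
      rw [mem_rootsOfUnity]
      apply Units.ext
      simpa using hz)
  exact h1

theorem cycM_eq_of {c : ℕ} [NeZero c] {ζ : Qbar} (hζ : IsPrimitiveRoot ζ c) {σ : GQ} {n : ℕ}
    (h : σ ζ = ζ ^ n) : ((cycM c σ : (ZMod c)ˣ) : ZMod c) = n := by
  rw [cycM_spec c σ hζ.pow_eq_one] at h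
  have h1 : ζ ^ ((cycM c σ : (ZMod c)ˣ) : ZMod c).val = ζ ^ ((n : ZMod c)).val := by
    rw [h, ZMod.val_natCast, ← pow_mod_orderOf ζ n, ← hζ.eq_orderOf]
  exact ZMod.val_injective c (hζ.pow_inj (ZMod.val_lt _) (ZMod.val_lt _) h1)

theorem cycM_cast {c s : ℕ} [NeZero c] [NeZero s] (h : s ∣ c) (σ : GQ) :
    ZMod.castHom h (ZMod s) ((cycM c σ : (ZMod c)ˣ) : ZMod c) =
      ((cycM s σ : (ZMod s)ˣ) : ZMod s) := by
  obtain ⟨ζ, hζ⟩ := exists_prim s
  have h1 : σ ζ = ζ ^ ((cycM c σ : (ZMod c)ˣ) : ZMod c).val := by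
    apply cycM_spec
    obtain ⟨d, rfl⟩ := h
    rw [pow_mul, hζ.pow_eq_one, one_pow]
  rw [cycM_eq_of hζ h1]
  conv_lhs => rw [← ZMod.natCast_zmod_val ((cycM c σ : (ZMod c)ˣ) : ZMod c)]
  rw [map_natCast]

theorem cycM_frob {A : ValuationSubring Qbar} {l : ℕ} (hl : l.Prime) (hA : A.LiesOverPrime l)
    {Φ : GQ} (hΦ : A.IsFrobeniusAt Φ l) {c : ℕ} [NeZero c] (hc : ¬ l ∣ c) :
    ((cycM c Φ : (ZMod c)ˣ) : ZMod c) = l := by
  obtain ⟨ζ, hζ⟩ := exists_prim c
  exact cycM_eq_of hζ (frob_rootOfUnity hl hA hΦ hc hζ.pow_eq_one)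

theorem cycM_inertia {A : ValuationSubring Qbar} {q : ℕ} (hq : q.Prime) (hA : A.LiesOverPrime q)
    {σ : GQ} (hσ : σ ∈ A.inertiaSubgroupIn ℚ) {c : ℕ} [NeZero c] (hc : ¬ q ∣ c) :
    cycM c σ = 1 := by
  obtain ⟨ζ, hζ⟩ := exists_prim c
  apply Units.ext
  rw [Units.val_one, cycM_eq_of hζ (n := 1) (by
    rw [pow_one]; exact inertia_rootOfUnity hq hA hσ hc hζ.pow_eq_one), Nat.cast_one]

theorem cycM_level (c : ℕ) [NeZero c] : ∃ L : IntermediateField ℚ Qbar,
    FiniteDimensional ℚ L ∧ ∀ σ : GQ, (∀ x ∈ L, σ x = x) → cycM c σ = 1 := by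
  obtain ⟨ζ, hζ⟩ := exists_prim c
  refine ⟨IntermediateField.adjoin ℚ {ζ}, IntermediateField.adjoin.finiteDimensional
    (Algebra.IsIntegral.isIntegral ζ), fun σ hσ => ?_⟩
  apply Units.ext
  rw [Units.val_one, cycM_eq_of hζ (n := 1) (by
    rw [pow_one]; exact hσ ζ (IntermediateField.mem_adjoin_simple_self ℚ ζ)), Nat.cast_one]

/-- roots of unity of order `q` are congruent to one at places over `q` -/
theorem valuation_zeta_sub_one {A : ValuationSubring Qbar} {q : ℕ} (hq : q.Prime)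
    (hA : A.LiesOverPrime q) {ζ : Qbar} (hζ : ζ ^ q = 1) : A.valuation (ζ - 1) < 1 := by
  have hmem : ζ ∈ A := mem_of_pow_eq_one hq.ne_zero hζ
  have : CharP (IsLocalRing.ResidueField A) q := FrobDens.charP_residueField A hq hA
  have : Fact q.Prime := ⟨hq⟩
  have h1 : (IsLocalRing.residue A (⟨ζ, hmem⟩ - 1)) ^ q = 0 := by
    rw [map_sub, map_one, sub_pow_char, one_pow, ← map_pow]
    have h2 : (⟨ζ, hmem⟩ : A) ^ q = 1 := Subtype.ext hζ
    rw [h2, map_one, sub_self]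
  have h2 := pow_eq_zero_iff hq.ne_zero |>.mp h1
  rw [map_sub, sub_eq_zero] at h2
  exact (FrobDens.residue_eq_iff A (⟨ζ, hmem⟩ : A) (1 : A)).mp h2

/-- **inertia at `q` surjects onto `(ℤ/q)ˣ`** -/
theorem exists_inertia_cycM {A : ValuationSubring Qbar} {q : ℕ} (hq : q.Prime) [NeZero q]
    (hA : A.LiesOverPrime q) (a : (ZMod q)ˣ) : ∃ σ ∈ A.inertiaSubgroupIn ℚ, cycM q σ = a := by
  have : Fact q.Prime := ⟨hq⟩
  obtain ⟨ζ, hζ⟩ := exists_prim q
  have hcop : Nat.Coprime (a : ZMod q).val q := ZMod.val_coe_unit_coprime a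
  have hζa : IsPrimitiveRoot (ζ ^ (a : ZMod q).val) q := hζ.pow_of_coprime _ hcop
  obtain ⟨g, hg⟩ : ∃ g : GQ, g ζ = ζ ^ (a : ZMod q).val := by
    have h1 : IsConjRoot ℚ (ζ ^ (a : ZMod q).val) ζ := by
      rw [isConjRoot_def]
      rw [← Polynomial.cyclotomic_eq_minpoly_rat hζa hq.pos,
        ← Polynomial.cyclotomic_eq_minpoly_rat hζ hq.pos]
    exact isConjRoot_iff_exists_algEquiv.mp h1
  let K := IntermediateField.adjoin ℚ {ζ}
  have : FiniteDimensional ℚ K := IntermediateField.adjoin.finiteDimensional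
    (Algebra.IsIntegral.isIntegral ζ)
  have hcyc : IsCyclotomicExtension {q} ℚ K := hζ.intermediateField_adjoin_isCyclotomicExtension ℚ
  have : NumberField K := ⟨⟩
  have hnorm : Normal ℚ K := (IsCyclotomicExtension.isGalois {q} ℚ K).to_normal
  have hstab : ∀ g : GQ, ∀ x ∈ K, g x ∈ K := by
    intro g x hx
    have h2 := AlgEquiv.restrictNormal_commutes g K ⟨x, hx⟩
    have h3 : g x = algebraMap _ Qbar (AlgEquiv.restrictNormal g K ⟨x, hx⟩) := h2.symm
    rw [h3]
    exact (AlgEquiv.restrictNormal g K ⟨x, hx⟩).2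
  let ζK : K := ⟨ζ, IntermediateField.mem_adjoin_simple_self ℚ ζ⟩
  have hζK : IsPrimitiveRoot ζK q := IsPrimitiveRoot.coe_submonoidClass_iff.mp hζ
  have hint := IsCyclotomicExtension.Rat.isIntegralClosure_adjoin_singleton_of_prime hζK
  have hval := valuation_zeta_sub_one hq hA hζ.pow_eq_one
  have hmemζ : ζ ∈ A := mem_of_pow_eq_one hq.ne_zero hζ.pow_eq_one
  -- the property
  have key : ∀ x : K, x ∈ Algebra.adjoin ℤ ({ζK} : Set K) →
      (x : Qbar) ∈ A ∧ A.valuation (g x - x) < 1 := by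
    intro x hx
    induction hx using Algebra.adjoin_induction with
    | mem x hx =>
      rw [Set.mem_singleton_iff] at hx
      subst hx
      refine ⟨hmemζ, ?_⟩
      change A.valuation (g ζ - ζ) < 1
      rw [hg]
      have h1 : ζ ^ (a : ZMod q).val - ζ = (ζ ^ (a : ZMod q).val - 1) - (ζ - 1) := by ring
      rw [h1]
      exact lt_of_le_of_lt (A.valuation.map_sub _ _)
        (max_lt (valuation_zeta_sub_one hq hA hζa.pow_eq_one) hval)
    | algebraMap n =>
      have h1 : ((algebraMap ℤ K n : K) : Qbar) = (n : Qbar) := by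
        rw [eq_intCast]; exact map_intCast (algebraMap K Qbar) n
      rw [h1, map_intCast, sub_self, map_zero]
      exact ⟨intCast_mem A n, zero_lt_one⟩
    | add x y _ _ hx hy =>
      refine ⟨add_mem hx.1 hy.1, ?_⟩
      have h1 : g ((x + y : K) : Qbar) - ((x + y : K) : Qbar) = (g x - x) + (g y - y) := by
        change g ((x : Qbar) + y) - ((x : Qbar) + y) = _
        rw [map_add]; ring
      rw [h1]
      exact lt_of_le_of_lt (A.valuation.map_add _ _) (max_lt hx.2 hy.2)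
    | mul x y _ _ hx hy =>
      refine ⟨mul_mem hx.1 hy.1, ?_⟩
      have h1 : g ((x * y : K) : Qbar) - ((x * y : K) : Qbar) =
          (g x - x) * (g y - y) + (x : Qbar) * (g y - y) + (g x - x) * (y : Qbar) := by
        change g ((x : Qbar) * y) - ((x : Qbar) * y) = _
        rw [map_mul]; ring
      have hx1 : A.valuation (x : Qbar) ≤ 1 := (A.valuation_le_one_iff _).mpr hx.1
      have hy1 : A.valuation (y : Qbar) ≤ 1 := (A.valuation_le_one_iff _).mpr hy.1
      rw [h1]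
      refine lt_of_le_of_lt (A.valuation.map_add _ _) (max_lt
        (lt_of_le_of_lt (A.valuation.map_add _ _) (max_lt ?_ ?_)) ?_)
      · rw [map_mul]; exact mul_lt_one_of_lt_of_le hx.2 hy.2.le
      · rw [map_mul, mul_comm]; exact mul_lt_one_of_lt_of_le hy.2 hx1
      · rw [map_mul]; exact mul_lt_one_of_lt_of_le hx.2 hy1
  obtain ⟨σ, hσ, hσg⟩ := TWGal.exists_inertia_of_integral hq hA K hstab g (by
    intro b hbK hb
    have hbi : IsIntegral ℤ (⟨b, hbK⟩ : K) :=
      (isIntegral_algHom_iff (IsScalarTower.toAlgHom ℤ K Qbar) (algebraMap K Qbar).injective).mp hb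
    obtain ⟨y, hy⟩ := hint.isIntegral_iff.mp hbi
    have h1 := (key y y.2).2
    have h2 : ((y : K) : Qbar) = b := by
      have : (y : K) = ⟨b, hbK⟩ := hy
      rw [this]
    rwa [h2] at h1)
  refine ⟨σ, hσ, Units.ext ?_⟩
  rw [cycM_eq_of hζ (n := (a : ZMod q).val) (by
    rw [hσg ζ (IntermediateField.mem_adjoin_simple_self ℚ ζ), hg]), ZMod.natCast_zmod_val]

end Fermat.Agent.TWDia
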