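import Fermat.Agent.TWDia.Point
import Fermat.Agent.TWInst.Gen

/-!
# Local-global compatibility at the points
-/

set_option autoImplicit false
set_option maxHeartbeats 400000
set_option linter.unusedSectionVars false

noncomputable section

namespace Fermat.Agent.TWDia

open IsLocalRing Matrix Fermat.Agent.DefRing Fermat.Agent.GalRep Fermat.Agent.TWPatch
  Fermat.Agent.TWLoc Fermat.Agent.TWGal CuspForm Fermat.Agent.AnJac Fermat.Agent.HeckeQ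
open Fermat.Agent.TWInst
open Fermat.Agent.TWCoh hiding GQ

local notation "Qbar" => AlgebraicClosure ℚ

attribute [local instance] algDk LevD.cnl

theorem cycM_eq_zq (q : ℕ) [NeZero q] (g : GQ) : cycM q g = zq q g := by
  apply Units.ext
  have h1 := cycM_eq_of (zeta_spec q) (σ := g) (zq_spec q g)
  rw [h1, ZMod.natCast_zmod_val]

theorem Psi_eq_Wg {Λ : Type} [CommRing Λ] {ψ : ∀ q : ℕ, DirichletCharacter Λ q} {s : Finset ℕ}
    {c : ℕ} [NeZero c] (hs : ∀ q ∈ s, q ∣ c) (g : GQ) : Psi ψ s g = Wg ψ s c g := by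
  rw [Psi_apply, Wg_apply, wch_apply hs]
  refine Finset.prod_congr rfl fun q hq => ?_
  have hq0 : q ≠ 0 := fun h => NeZero.ne c (Nat.eq_zero_of_zero_dvd (h ▸ hs q hq))
  rw [dif_neg hq0]
  have : NeZero q := ⟨hq0⟩
  rw [← cycM_eq_zq]
  congr 1
  exact (cycM_cast (hs q hq) g).symm

variable {p : ℕ} [hpf : Fact p.Prime] {O : Type} [CommRing O] [CNL O] {G : Glob p O}
  [Nontrivial (M0 O G.N G.τ)] [CNL G.R₀] {ρ₀ : Rep0 G} {r n : ℕ} {L : LevD G r n}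
  {gn : heckeAlgebra L.NN 2 (bad L.Q) →+* L.R} [Algebra ℤ_[p] O] [Module.Finite ℤ_[p] O]

theorem point_lgc {ψ : ∀ q : ℕ, DirichletCharacter (DRing O p n r) q} {K : Type} [Field K]
    [CharZero K] {κ : DRing O p n r →+* K} (e : EPt L.pcond ψ K κ)
    (F : L.R →+* FN L.pcond ψ)
    (hFκ : ∀ [Nontrivial (MQ (N := G.N) (I := G.I) G.τ L.α L.pcond.cdr_dvd ψ)] (x : L.R),
      (haveI := G.cnlDk n r; resFN L.pcond ψ (F x)) = L.κ x)
    (hFT : ∀ l : PS (bad L.Q), F (TN.T L.pcond l) = algebraMap _ _ (ws ψ (allP L.Q G.I) l.1) *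
      FN.X L.pcond ψ (inclPS (sub_bad L.Q) l))
    (hpow : ∀ q ∈ allP L.Q G.I, ∃ e, ψ q ^ p ^ e = 1)
    (hg : ∀ l : PS (bad L.Q), gn (gT L.pcond.dat₁.avoid l) = TN.T L.pcond l)
    (ρn : RepN (ρ₀ := ρ₀) gn) (j : Fin r)
    {A : ValuationSubring Qbar} (hA : A.LiesOverPrime (L.qs j).1)
    {Φ : GQ} (hΦ : A.IsFrobeniusAt Φ (L.qs j).1) :
    (κ (Psi ψ (allP L.Q G.I) Φ) * e.y (FN.X L.pcond ψ (L.qs j))) ^ 2 -
      e.y (F (ρn.T Φ).trace) * (κ (Psi ψ (allP L.Q G.I) Φ) * e.y (FN.X L.pcond ψ (L.qs j))) +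
      e.y (F (ρn.T Φ).det) = 0 := by
  have := G.cnlDk n r
  have := e.nontrivial
  have : NeZero (cdr L.Q G.I) :=
    ⟨Finset.prod_ne_zero_iff.2 fun q hq => (L.prime_allP hq).ne_zero⟩
  rw [Psi_eq_Wg (c := cdr L.Q G.I) (fun q hq => dvd_cdr hq)]
  have : Module.Finite ℤ_[p] (DRing O p n r) := Module.Finite.trans O _
  have := L.fin
  have : Module.Finite ℤ_[p] L.R := Module.Finite.trans O _
  obtain ⟨g₀, h₀, hgh⟩ := G.comm
  refine EPt_lgc G.hp5 G.hS hpow e F ρn.cont ?_ ?_ (g₀ := g₀) (h₀ := h₀) ?_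
    (L.mem_Q.mpr ⟨j, rfl⟩) hA hΦ
  · intro l A hA Φ hΦ
    have hlp : ¬ l.1 ∣ L.NN * p := NN_p_of L l.2.1 (L.pcond.dat₁.avoid l)
      (fun h => l.2.2 (Or.inl (by rw [h]; exact G.hpS)))
    have h3 := (ρn.frob l.1 l.2.1 hlp l.2.2 A hA Φ hΦ).1
    rw [piH_T _ l.2.1 hlp l.2.2] at h3
    have h4 : (ρn.T Φ).trace = TN.T L.pcond l := h3.trans (hg l)
    rw [h4, hFT]
  · intro l A hA Φ hΦ
    have hlp : ¬ l.1 ∣ L.NN * p := NN_p_of L l.2.1 (L.pcond.dat₁.avoid l)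
      (fun h => l.2.2 (Or.inl (by rw [h]; exact G.hpS)))
    exact (ρn.frob l.1 l.2.1 hlp l.2.2 A hA Φ hΦ).2
  · rw [hFκ]
    intro h1
    apply hgh
    rw [← ρn.res, ← h1, Matrix.trace_fin_two, Matrix.trace_fin_two, map_add]
    rfl

/-- **local-global compatibility at the points of the first type** -/
theorem lgc₁ {K : Type} [Field K] [CharZero K] [Algebra O K]
    (hg : ∀ l : PS (bad L.Q), gn (gT L.pcond.dat₁.avoid l) = TN.T L.pcond l)
    (ρn : RepN (ρ₀ := ρ₀) gn) : LGC₁ K ρn := fun e j A hA Φ hΦ =>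
  point_lgc e.2 (toFN₁ L.pcond) (fun x => resFN_toFN₁ x) (toFN₁_T L.pcond) L.pcond.pow₁ hg ρn j
    hA hΦ

/-- **local-global compatibility at the points of the second type** -/
theorem lgc₂ {K : Type} [Field K] [CharZero K] [Algebra O K]
    (hg : ∀ l : PS (bad L.Q), gn (gT L.pcond.dat₁.avoid l) = TN.T L.pcond l)
    (ρn : RepN (ρ₀ := ρ₀) gn) : LGC₂ K ρn := fun e j A hA Φ hΦ =>
  point_lgc e.2 (toFN₂ L.pcond) (fun x => resFN_toFN₂ x) (toFN₂_T L.pcond) L.pcond.pow₂ hg ρn j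
    hA hΦ

end Fermat.Agent.TWDia
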