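import Fermat.Agent.GalRep.DVRExt
import Fermat.Agent.TWLoc.Package

/-!
# Discrete valuation rings containing the values of a point
-/

set_option autoImplicit false
set_option linter.style.haveILetI false

noncomputable section

namespace Fermat.Agent.TWDia

open IsLocalRing Fermat.Agent.TWPatch

variable {p : ℕ} [hp : Fact p.Prime]

/-- homomorphisms from `ℤ_p` to fields of characteristic zero are injective -/
theorem injective_padic {K : Type*} [Field K] [CharZero K] (f : ℤ_[p] →+* K) :
    Function.Injective f := by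
  rw [injective_iff_map_eq_zero]
  intro c hc
  by_contra hc0
  rw [PadicInt.unitCoeff_spec hc0, map_mul, map_pow, map_natCast, mul_eq_zero] at hc
  rcases hc with hc | hc
  · exact ((PadicInt.unitCoeff hc0).isUnit.map f).ne_zero hc
  · exact pow_ne_zero _ (Nat.cast_ne_zero.mpr hp.out.ne_zero) hc

/-- **a discrete valuation ring containing the values of a point** -/
theorem exists_dvr {K : Type} [Field K] [CharZero K] {B : Type} [CommRing B] [Algebra ℤ_[p] B]
    [Module.Finite ℤ_[p] B] (y : B →+* K) :
    ∃ (O' : Type) (_ : CommRing O') (_ : IsDomain O') (_ : IsDiscreteValuationRing O')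
      (_ : IsAdicComplete (maximalIdeal O') O') (_ : CharZero O') (_ : Algebra ℤ_[p] O')
      (_ : Module.Finite ℤ_[p] O'), (p : O') ∈ maximalIdeal O' ∧
      ∃ (jO : O' →+* K) (y' : B →+* O'), Function.Injective jO ∧ ∀ x, jO (y' x) = y x := by
  letI : Algebra ℤ_[p] K := (y.comp (algebraMap ℤ_[p] B)).toAlgebra
  have hinj0 : Function.Injective (algebraMap ℤ_[p] K) := injective_padic _
  letI : Algebra ℚ_[p] K := (IsFractionRing.lift hinj0 : ℚ_[p] →+* K).toAlgebra
  haveI : IsScalarTower ℤ_[p] ℚ_[p] K := IsScalarTower.of_algebraMap_eq fun x =>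
    (IsFractionRing.lift_algebraMap hinj0 x).symm
  let ya : B →ₐ[ℤ_[p]] K := { y with commutes' := fun _ => rfl }
  have hyint : ∀ b : B, IsIntegral ℤ_[p] (y b) := fun b =>
    (Algebra.IsIntegral.isIntegral (R := ℤ_[p]) b).map ya
  obtain ⟨n, f, hf⟩ := Module.Finite.exists_fin (R := ℤ_[p]) (M := B)
  let E₀ : IntermediateField ℚ_[p] K := IntermediateField.adjoin ℚ_[p] (Set.range fun i => y (f i))
  haveI : FiniteDimensional ℚ_[p] E₀ := IntermediateField.finiteDimensional_adjoin (by
    rintro _ ⟨i, rfl⟩
    exact (hyint (f i)).tower_top)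
  let O' := integralClosure ℤ_[p] E₀
  haveI : Algebra.IsSeparable ℚ_[p] E₀ := inferInstance
  haveI : IsDedekindDomain O' := integralClosure.isDedekindDomain ℤ_[p] ℚ_[p] E₀
  haveI : IsFractionRing O' E₀ := integralClosure.isFractionRing_of_finite_extension ℚ_[p] E₀
  haveI : Module.Finite ℤ_[p] O' := IsIntegralClosure.finite ℤ_[p] ℚ_[p] E₀ O'
  have hOE : Function.Injective (algebraMap ℤ_[p] E₀) := by
    rw [IsScalarTower.algebraMap_eq ℤ_[p] ℚ_[p] E₀]
    exact (algebraMap ℚ_[p] E₀).injective.comp (IsFractionRing.injective ℤ_[p] ℚ_[p])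
  have hinj : Function.Injective (algebraMap ℤ_[p] O') := by
    intro a b hab
    exact hOE (congrArg Subtype.val hab)
  haveI : Finite (ResidueField ℤ_[p]) := CNL.finRes
  obtain ⟨h1, h2, h3, h4, h5⟩ := GalRep.dvr_ext (O := ℤ_[p]) (B := O') hinj
  haveI := h1
  haveI : CharZero O' := charZero_of_injective_algebraMap hinj
  let jO : O' →+* K := (algebraMap E₀ K).comp (algebraMap O' E₀)
  have hjO : Function.Injective jO :=
    (algebraMap E₀ K).injective.comp (IsFractionRing.injective O' E₀)
  have hmem : ∀ b : B, y b ∈ E₀ := by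
    intro b
    have hb : b ∈ Submodule.span ℤ_[p] (Set.range f) := by rw [hf]; trivial
    induction hb using Submodule.span_induction with
    | mem x hx =>
      obtain ⟨i, rfl⟩ := hx
      exact IntermediateField.subset_adjoin _ _ ⟨i, rfl⟩
    | zero => rw [map_zero]; exact zero_mem _
    | add x y _ _ hx hy => rw [map_add]; exact add_mem hx hy
    | smul c x _ hx =>
      have e : y (c • x) = algebraMap ℚ_[p] K (algebraMap ℤ_[p] ℚ_[p] c) * y x := by
        rw [Algebra.smul_def, map_mul, ← IsScalarTower.algebraMap_apply]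
        rfl
      rw [e]
      exact mul_mem (E₀.algebraMap_mem _) hx
  haveI : IsScalarTower ℤ_[p] E₀ K := IsScalarTower.of_algebraMap_eq fun x => by
    rw [IsScalarTower.algebraMap_apply ℤ_[p] ℚ_[p] E₀, ← IsScalarTower.algebraMap_apply ℚ_[p] E₀ K,
      ← IsScalarTower.algebraMap_apply ℤ_[p] ℚ_[p] K]
  have hint' : ∀ b : B, IsIntegral ℤ_[p] (⟨y b, hmem b⟩ : E₀) := by
    intro b
    exact (isIntegral_algHom_iff (IsScalarTower.toAlgHom ℤ_[p] E₀ K)
      (algebraMap E₀ K).injective).mp (hyint b)
  let y' : B →+* O' :=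
    { toFun := fun b => ⟨⟨y b, hmem b⟩, hint' b⟩
      map_one' := Subtype.ext (Subtype.ext (map_one y))
      map_mul' := fun a b => Subtype.ext (Subtype.ext (map_mul y a b))
      map_zero' := Subtype.ext (Subtype.ext (map_zero y))
      map_add' := fun a b => Subtype.ext (Subtype.ext (map_add y a b)) }
  refine ⟨O', inferInstance, inferInstance, h1, h3, inferInstance, inferInstance,
    inferInstance, ?_, jO, y', hjO, fun x => rfl⟩
  rw [mem_maximalIdeal, mem_nonunits_iff, ← map_natCast (algebraMap ℤ_[p] O')]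
  intro hu
  have h6 := isUnit_of_map_unit (algebraMap ℤ_[p] O') _ hu
  have h7 : (p : ℤ_[p]) ∈ maximalIdeal ℤ_[p] := by
    rw [PadicInt.maximalIdeal_eq_span_p]
    exact Ideal.mem_span_singleton_self _
  exact h7 h6

/-- local rings finite over `ℤ_p`: the comap of the maximal ideal -/
theorem comap_maximal {B O' : Type*} [CommRing B] [IsLocalRing B] [Algebra ℤ_[p] B]
    [Algebra.IsIntegral ℤ_[p] B] [CommRing O'] [IsLocalRing O']
    (hpO : (p : O') ∈ maximalIdeal O') (f : B →+* O') :
    (maximalIdeal O').comap f = maximalIdeal B := by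
  have h1 : ((maximalIdeal O').comap f).IsPrime := inferInstance
  have h2 : (((maximalIdeal O').comap f).comap (algebraMap ℤ_[p] B)).IsMaximal := by
    have h3 : (((maximalIdeal O').comap f).comap (algebraMap ℤ_[p] B)).IsPrime := inferInstance
    have h4 : maximalIdeal ℤ_[p] ≤ ((maximalIdeal O').comap f).comap (algebraMap ℤ_[p] B) := by
      rw [PadicInt.maximalIdeal_eq_span_p, Ideal.span_singleton_le_iff_mem, Ideal.mem_comap,
        Ideal.mem_comap, map_natCast, map_natCast]
      exact hpO
    rw [← (maximalIdeal.isMaximal ℤ_[p]).eq_of_le h3.ne_top h4]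
    exact maximalIdeal.isMaximal _
  exact eq_maximalIdeal (Ideal.isMaximal_of_isIntegral_of_isMaximal_comap _ h2)

end Fermat.Agent.TWDia
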