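import Fermat.Agent.TWDia.Wch
import Fermat.Agent.AnJacH.Final
import Fermat.Agent.DefRing.MatRep

/-!
# Local-global compatibility at a point of the Hecke algebra
-/

set_option autoImplicit false
set_option linter.unusedSectionVars false

noncomputable section

namespace Fermat.Agent.TWDia

open Matrix CongruenceSubgroup MvPolynomial Fermat.Agent.AnJac Fermat.Agent.TWCoh
open Fermat.Agent.DefRing Fermat.Agent.AnJacH IsLocalRing
open scoped MatrixGroups OnePoint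

local notation "Qbar" => AlgebraicClosure ℚ
local notation "GQ" => Qbar ≃ₐ[ℚ] Qbar

section Twist

variable {O : Type} [CommRing O] [IsLocalRing O]

/-- twist of a matrix representation -/
def twM (w : GQ →* O) (T : GQ →* Matrix (Fin 2) (Fin 2) O) : GQ →* Matrix (Fin 2) (Fin 2) O where
  toFun g := w g⁻¹ • T g
  map_one' := by rw [inv_one, map_one, map_one, one_smul]
  map_mul' g h := by
    rw [_root_.mul_inv_rev, map_mul, map_mul, Matrix.smul_mul, Matrix.mul_smul, smul_smul, mul_comm (w h⁻¹)]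

theorem twM_trace (w : GQ →* O) (T : GQ →* Matrix (Fin 2) (Fin 2) O) (g : GQ) :
    (twM w T g).trace = w g⁻¹ * (T g).trace := by
  change (w g⁻¹ • T g).trace = _
  rw [Matrix.trace_smul, smul_eq_mul]

theorem twM_det (w : GQ →* O) (T : GQ →* Matrix (Fin 2) (Fin 2) O) (g : GQ) :
    (twM w T g).det = w g⁻¹ ^ 2 * (T g).det := by
  change (w g⁻¹ • T g).det = _
  rw [Matrix.det_smul, Fintype.card_fin]

theorem w_mul_inv (w : GQ →* O) (g : GQ) : w g * w g⁻¹ = 1 := by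
  rw [← map_mul, mul_inv_cancel, map_one]

theorem matCont_twM {w : GQ →* O} {T : GQ →* Matrix (Fin 2) (Fin 2) O} (hT : MatCont T)
    (hw : ∃ L : IntermediateField ℚ Qbar, FiniteDimensional ℚ L ∧
      ∀ σ : GQ, (∀ x ∈ L, σ x = x) → w σ = 1) : MatCont (twM w T) := by
  intro n
  obtain ⟨L₁, hL₁, h₁⟩ := hT n
  obtain ⟨L₂, hL₂, h₂⟩ := hw
  refine ⟨L₁ ⊔ L₂, inferInstance, fun σ hσ i j => ?_⟩
  have h3 : w σ⁻¹ = 1 := by
    have := w_mul_inv w σ
    rwa [h₂ σ fun x hx => hσ x (le_sup_right (a := L₁) hx), one_mul] at this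
  change (w σ⁻¹ • T σ) i j - _ ∈ _
  rw [h3, one_smul]
  exact h₁ σ (fun x hx => hσ x (le_sup_left (a := L₁) hx)) i j

theorem mapT_trace {R R' : Type} [CommRing R] [CommRing R'] (f : R →+* R')
    (T : GQ →* Matrix (Fin 2) (Fin 2) R) (g : GQ) : (mapT f T g).trace = f (T g).trace := by
  rw [Matrix.trace_fin_two, Matrix.trace_fin_two, map_add]
  rfl

theorem mapT_det {R R' : Type} [CommRing R] [CommRing R'] (f : R →+* R')
    (T : GQ →* Matrix (Fin 2) (Fin 2) R) (g : GQ) : (mapT f T g).det = f (T g).det :=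
  (RingHom.map_det f (T g)).symm

theorem isLocalHom_of_comap {B O' : Type*} [CommRing B] [IsLocalRing B] [CommRing O']
    [IsLocalRing O'] {f : B →+* O'} (h : (maximalIdeal O').comap f = maximalIdeal B) :
    IsLocalHom f := by
  constructor
  intro x hx
  by_contra hn
  have h1 : x ∈ maximalIdeal B := hn
  rw [← h, Ideal.mem_comap] at h1
  exact h1 hx

end Twist

section Pow

variable {K : Type*} [Field K]

theorem eq_one_of_coprime_pow {x : K} {a b : ℕ} (hab : Nat.Coprime a b) (ha : x ^ a = 1)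
    (hb : x ^ b = 1) : x = 1 := by
  have h1 := orderOf_dvd_of_pow_eq_one ha
  have h2 := orderOf_dvd_of_pow_eq_one hb
  have h3 := Nat.dvd_gcd h1 h2
  rw [Nat.coprime_iff_gcd_eq_one.mp hab, Nat.dvd_one] at h3
  exact orderOf_eq_one_iff.mp h3

end Pow

section Main

variable {O k Λ : Type} [CommRing O] [Field k] [Algebra O k] [CommRing Λ] [Algebra Λ k]
    {ε : Λ →+* O} {lam : Λ} {p N N'' : ℕ} {S : Set ℕ} {Q : Finset (PS S)} {I : Finset ℕ}
    {τ α β : PS S → k} {ψ₁ ψ₂ : ∀ q : ℕ, DirichletCharacter Λ q}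
    [NeZero N] [IsLocalRing Λ] [IsNoetherianRing Λ]
    [IsAdicComplete (IsLocalRing.maximalIdeal Λ) Λ] [hpf : Fact p.Prime] [Algebra ℤ_[p] Λ]
    [Module.Finite ℤ_[p] Λ]

instance finite_padic_FN (h : PCond ε lam p N N'' Q I τ α β ψ₁ ψ₂)
    (ψ : ∀ q : ℕ, DirichletCharacter Λ q) : Module.Finite ℤ_[p] (FN h ψ) :=
  Module.Finite.trans Λ _

theorem mul_00_11 {M c : ℕ} (hc : c ∣ M) (γ : Gamma0 M) :
    (((γ : SL(2, ℤ)) 0 0 : ℤ) : ZMod c) * (((γ : SL(2, ℤ)) 1 1 : ℤ) : ZMod c) = 1 := by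
  have h3 : (((γ : SL(2, ℤ)) 1 0 : ℤ) : ZMod c) = 0 := entry_cast M γ hc
  have h5 := Matrix.det_fin_two ((γ : SL(2, ℤ)) : Matrix (Fin 2) (Fin 2) ℤ)
  rw [Matrix.SpecialLinearGroup.det_coe] at h5
  have h6 := congrArg (fun t : ℤ => (t : ZMod c)) h5
  push_cast at h6
  rw [h3, mul_zero, sub_zero] at h6
  exact h6.symm

theorem unit_char {q : ℕ} (ψ : DirichletCharacter Λ q) (u : (ZMod q)ˣ) :
    ψ (u : ZMod q) * ψ⁻¹ (u : ZMod q) = 1 := by
  rw [← MulChar.mul_apply, mul_inv_cancel, MulChar.one_apply_coe]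

set_option maxHeartbeats 1600000 in
/-- **local-global compatibility at a point of the Hecke algebra** -/
theorem EPt_lgc {h : PCond ε lam p N N'' Q I τ α β ψ₁ ψ₂} (hp5 : 5 ≤ p) (hSf : S.Finite)
    {ψ : ∀ q : ℕ, DirichletCharacter Λ q} (hψ : ∀ q ∈ allP Q I, ∃ e, ψ q ^ p ^ e = 1)
    [NeZero (cdr Q I)] [Nontrivial (MQ (N := N) (I := I) τ α h.cdr_dvd ψ)]
    {K : Type} [Field K] [CharZero K] {κ : Λ →+* K} (e : EPt h ψ K κ)
    {R : Type} [CommRing R] [IsLocalRing R] [Algebra ℤ_[p] R] [Algebra.IsIntegral ℤ_[p] R]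
    (u : R →+* FN h ψ) {T : GQ →* Matrix (Fin 2) (Fin 2) R} (hT : MatCont T)
    (htr : ∀ l : PS (bad Q), ∀ A : ValuationSubring Qbar, A.LiesOverPrime l.1 → ∀ Φ : GQ,
      A.IsFrobeniusAt Φ l.1 → u (T Φ).trace = algebraMap Λ _ (ws ψ (allP Q I) l.1) *
        FN.X h ψ (inclPS (sub_bad Q) l))
    (hdet : ∀ l : PS (bad Q), ∀ A : ValuationSubring Qbar, A.LiesOverPrime l.1 → ∀ Φ : GQ,
      A.IsFrobeniusAt Φ l.1 → (T Φ).det = (l.1 : R))
    {g₀ h₀ : GQ} (hne : resFN h ψ (u (T (g₀ * h₀ * g₀⁻¹ * h₀⁻¹)).trace) ≠ 2)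
    {q : PS S} (hq : q ∈ Q) {A : ValuationSubring Qbar} (hA : A.LiesOverPrime q.1) {Φ : GQ}
    (hΦ : A.IsFrobeniusAt Φ q.1) :
    (κ (Wg ψ (allP Q I) (cdr Q I) Φ) * e.y (FN.X h ψ q)) ^ 2 -
      e.y (u (T Φ).trace) * (κ (Wg ψ (allP Q I) (cdr Q I) Φ) * e.y (FN.X h ψ q)) +
      e.y (u (T Φ).det) = 0 := by
  classical
  have hqP : Fact q.1.Prime := ⟨q.2.1⟩
  have hq0 : NeZero q.1 := ⟨q.2.1.ne_zero⟩
  have hloc := isLocalRing_FN h ψ
  have hs : ∀ r ∈ allP Q I, r ∣ cdr Q I := fun r hr => dvd_cdr hr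
  -- the discrete valuation ring
  obtain ⟨O', _, _, _, _, _, _, _, hpO, jO, y', hjO, hy'⟩ := exists_dvr (p := p) e.y
  have hcomap := comap_maximal hpO y'
  have hres : ∀ x, residue O' (y' x) = 0 ↔ resFN h ψ x = 0 := by
    intro x
    have h1 : (RingHom.ker (resFN h ψ)).IsMaximal := by
      refine RingHom.ker_isMaximal_of_surjective _ fun x => ?_
      obtain ⟨r, rfl⟩ := h.hΛk x
      exact ⟨algebraMap Λ _ r, resFN_algebraMap h ψ r⟩
    rw [residue_eq_zero_iff, ← RingHom.mem_ker, eq_maximalIdeal h1, ← hcomap, Ideal.mem_comap]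
  have hres' : ∀ x x', residue O' (y' x) = residue O' (y' x') ↔ resFN h ψ x = resFN h ψ x' := by
    intro x x'
    rw [← sub_eq_zero, ← map_sub, ← map_sub, hres, map_sub, sub_eq_zero]
  -- characters
  obtain ⟨E, hE⟩ := wch_pow (c := cdr Q I) hψ
  have hdE : ∀ v : (ZMod (cdr Q I))ˣ,
      dch ψ (allP Q I) (cdr Q I) (v : ZMod (cdr Q I)) ^ p ^ E = 1 := by
    intro v
    rw [dch_eq_sq hs, ← pow_mul, mul_comm, pow_mul, hE, one_pow]
  let θK : (ZMod (cdr Q I))ˣ →* Kˣ :=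
    MulChar.toUnitHom ((dch ψ (allP Q I) (cdr Q I)).ringHomComp κ)
  have hθK : ∀ v : (ZMod (cdr Q I))ˣ, ((θK v : Kˣ) : K) =
      κ (dch ψ (allP Q I) (cdr Q I) (v : ZMod (cdr Q I))) := fun v =>
    MulChar.coe_toUnitHom _ v
  have hθE : ∀ v, θK v ^ p ^ E = 1 := by
    intro v
    apply Units.ext
    rw [Units.val_pow_eq_pow_val, hθK, ← map_pow, hdE, map_one, Units.val_one]
  have hcop : Nat.Coprime 12 (p ^ E) := by
    apply Nat.Coprime.pow_right
    rw [Nat.coprime_comm, Nat.Prime.coprime_iff_not_dvd hpf.out]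
    intro hd
    have h2 : p ∣ 2 ^ 2 * 3 := hd
    rcases (Nat.Prime.dvd_mul hpf.out).mp h2 with h3 | h3
    · have := Nat.le_of_dvd two_pos (hpf.out.dvd_of_dvd_pow h3)
      omega
    · have := Nat.le_of_dvd three_pos h3
      omega
  have hH : ∀ v ∈ θK.ker, κ (dch ψ (allP Q I) (cdr Q I) (v : ZMod (cdr Q I))) = 1 := by
    intro v hv
    rw [← hθK, MonoidHom.mem_ker.mp hv, Units.val_one]
  have h12 : ∀ v : (ZMod (cdr Q I))ˣ, v ^ 12 = 1 → v ∈ θK.ker := by
    intro v hv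
    rw [MonoidHom.mem_ker]
    apply Units.ext
    refine eq_one_of_coprime_pow hcop ?_ ?_
    · rw [← Units.val_pow_eq_pow_val, ← map_pow, hv, map_one, Units.val_one]
    · rw [← Units.val_pow_eq_pow_val, hθE, Units.val_one]
  obtain ⟨e', he'⟩ : ∃ e', θK.ker.index = p ^ e' := by
    have h1 : IsPGroup p θK.range := by
      rintro ⟨_, v, rfl⟩
      exact ⟨E, Subtype.ext (hθE v)⟩
    obtain ⟨n, hn⟩ := h1.exists_card_eq
    exact ⟨n, by rw [Subgroup.index_ker, hn]⟩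
  -- the class
  let _ : Algebra O' K := jO.toAlgebra
  obtain ⟨v, hvN, hv0, hvχ, hvT, hvU⟩ := e.exists_class (H₀ := θK.ker) hH (D := O') hjO y' hy'
  -- the Galois side
  let w : GQ →* O' := ((y'.comp (algebraMap Λ (FN h ψ))).toMonoidHom).comp
    (Wg ψ (allP Q I) (cdr Q I))
  have hw : ∀ g, w g = y' (algebraMap Λ _ (Wg ψ (allP Q I) (cdr Q I) g)) := fun g => rfl
  have hwL : ∃ L : IntermediateField ℚ Qbar, FiniteDimensional ℚ L ∧
      ∀ σ : GQ, (∀ x ∈ L, σ x = x) → w σ = 1 := by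
    obtain ⟨L, hL, h1⟩ := cycM_level (cdr Q I)
    refine ⟨L, hL, fun σ hσ => ?_⟩
    rw [hw, Wg_apply, h1 σ hσ, Units.val_one, map_one, map_one, map_one]
  let T' : GQ →* Matrix (Fin 2) (Fin 2) O' := mapT (y'.comp u) T
  have hT' : MatCont T' := hT.map _ (isLocalHom_of_comap (comap_maximal hpO (y'.comp u)))
  have hT'tr : ∀ g, (T' g).trace = y' (u (T g).trace) := fun g => mapT_trace _ _ _
  have hT'det : ∀ g, (T' g).det = y' (u (T g).det) := fun g => mapT_det _ _ _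
  -- the noneisenstein prime
  obtain ⟨l₀, hl₀, hl₀τ⟩ := h.noneis
  have hl₀N : ¬ l₀.1 ∣ N'' := by
    intro h1
    have h2 : (l₀.1 : ℤ) ∣ l₀.1 - 1 := dvd_trans (by exact_mod_cast h1) hl₀
    have h3 : (l₀.1 : ℤ) ∣ 1 := by
      have := dvd_sub (dvd_refl (l₀.1 : ℤ)) h2
      simpa using this
    exact l₀.2.1.one_lt.ne' (Nat.dvd_one.1 (by exact_mod_cast h3))
  have hl₀L : ¬ l₀.1 ∣ lvl N Q := fun h1 => hl₀N (h1.trans h.lvl_dvd)
  have hl₀Q : l₀ ∉ Q := fun h1 => hl₀L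
    ((Finset.dvd_prod_of_mem (fun q : PS S => q.1) h1).trans (dvd_mul_left _ _))
  have hl₀B : l₀.1 ∉ bad Q := by
    rintro (h1 | ⟨q', hq', h1⟩)
    · exact l₀.2.2 h1
    · exact hl₀Q (by rwa [← Subtype.ext h1])
  have hbad : (bad Q : Set ℕ).Finite := by
    refine Set.Finite.union hSf ?_
    refine (Q.finite_toSet.image fun q : PS S => q.1).subset ?_
    rintro l ⟨q', hq', rfl⟩
    exact ⟨q', hq', rfl⟩
  have hqL : q.1 ∣ lvl N Q :=
    (Finset.dvd_prod_of_mem (fun q : PS S => q.1) hq).trans (dvd_mul_left _ _)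
  have hqp : q.1 ≠ p := by
    intro h1
    have h2 := h.tw.one q hq
    rw [h1, h.hp] at h2
    exact zero_ne_one h2
  have hαβ : α q * β q = 1 := by
    have h1 := h.tw.prod q hq
    rw [MulChar.inv_apply, MulChar.one_apply (isUnit_of_subsingleton _), mul_one, map_natCast,
      h.tw.one q hq] at h1
    exact h1
  have hαne := h.tw.distinct q hq
  have hresq : resFN h ψ (FN.X h ψ q) = α q := by
    rw [resFN_X, modE, if_pos hq]
  -- the eigenvalues
  let t : ℕ → O' := fun l => if hl : l.Prime ∧ l ∉ S then y' (FN.X h ψ ⟨l, hl⟩) else 0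
  have ht : ∀ l : PS S, t l.1 = y' (FN.X h ψ l) := fun l => by
    simp only [t]
    rw [dif_pos l.2]
  have hcdr : ∀ l : PS (bad Q), ¬ l.1 ∣ cdr Q I := fun l h1 =>
    h.not_dvd l (h1.trans h.cdr_dvd)
  have hwl : ∀ l : PS (bad Q), ∀ A : ValuationSubring Qbar, A.LiesOverPrime l.1 → ∀ Φ : GQ,
      A.IsFrobeniusAt Φ l.1 → w Φ = y' (algebraMap Λ _ (ws ψ (allP Q I) l.1)) := by
    intro l A hA Φ hΦ
    rw [hw, Wg_frob hs l.2.1 hA hΦ (hcdr l)]
  have key := lgc (p := p) (O := O') hpO (h := h.cdr_dvd) h.squarefree h12 he' (q := q.1) hqL hqp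
    (by
      have h1 : residue O' (y' ((q.1 : ℕ) : FN h ψ)) = residue O' (y' 1) := by
        rw [hres', map_natCast, h.tw.one q hq, map_one]
      rw [map_natCast, map_natCast, map_one, map_one] at h1
      exact h1)
    hvN hv0 (χ := fun g => y' (algebraMap Λ _ (dch ψ (allP Q I) (cdr Q I)
      (((g : SL(2,ℤ)) 0 0 : ℤ) : ZMod (cdr Q I)))))
    (fun g γ γ' e1 => hvχ g g.2 γ γ' e1)
    (fun g => by
      have h1 : IsUnit ((((g : SL(2,ℤ)) 0 0 : ℤ) : ZMod (cdr Q I))) :=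
        IsUnit.of_mul_eq_one _ (mul_00_11 h.cdr_dvd g)
      obtain ⟨v, hv⟩ := h1
      have h2 : residue O' (y' (algebraMap Λ (FN h ψ) (dch ψ (allP Q I) (cdr Q I)
          (((g : SL(2,ℤ)) 0 0 : ℤ) : ZMod (cdr Q I))))) = residue O' (y' 1) := by
        rw [hres', resFN_algebraMap, map_one, ← hv]
        exact pow_char_eq_one h.pp h.hp (e := E) (by rw [← map_pow, hdE, map_one])
      rw [h2, map_one, map_one])
    (S := bad Q) hbad (t := t) (fun l hl hlL hlS g hg => by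
      have h1 := hvT ⟨l, hl.out, fun h2 => hlS (sub_bad Q h2)⟩ hl hlL g hg
      have h2 := ht ⟨l, hl.out, fun h2 => hlS (sub_bad Q h2)⟩
      rw [h2]
      exact h1)
    (a := y' (FN.X h ψ q)) (hvU q hq0 hqL)
    (by
      intro h1
      have h2 : residue O' (y' (FN.X h ψ q ^ 2)) = residue O' (y' 1) := by
        rw [map_pow, map_pow, h1, map_one, map_one]
      rw [hres', map_pow, hresq, map_one, ← hαβ, pow_two] at h2
      exact hαne (mul_left_cancel₀ (h.tw.alpha q hq) h2))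
    (by
      rw [Ne, hres, hresq]
      exact h.tw.alpha q hq)
    (ρ := twM w T') (matCont_twM hT' hwL)
    (fun l hl hlL hlS A hA Φ hΦ => by
      have h1 := htr ⟨l, hl, hlS⟩ A hA Φ hΦ
      have h2 := ht (inclPS (sub_bad Q) ⟨l, hl, hlS⟩)
      have h3 := hwl ⟨l, hl, hlS⟩ A hA Φ hΦ
      rw [twM_trace, hT'tr, h1, map_mul, ← h3, ← mul_assoc, mul_comm (w Φ⁻¹), w_mul_inv, one_mul]
      exact h2.symm)
    (fun l hl hlL hlS A hA Φ hΦ g hg => by
      have h1 := hdet ⟨l, hl, hlS⟩ A hA Φ hΦ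
      have h3 := cycM_frob hl hA hΦ (hcdr ⟨l, hl, hlS⟩)
      have h4 : dch ψ (allP Q I) (cdr Q I) (((g : SL(2,ℤ)) 0 0 : ℤ) : ZMod (cdr Q I)) *
          Wg ψ (allP Q I) (cdr Q I) Φ ^ 2 = 1 := by
        rw [Wg_apply, ← dch_eq_sq hs, h3, ← hg, coe_dM]
        exact char_00_11 h.cdr_dvd g.2
      have h5 := congrArg (fun z => y' (algebraMap Λ (FN h ψ) z)) h4
      simp only [map_mul, map_pow, map_one] at h5
      rw [← hw] at h5
      have h6 : w Φ⁻¹ ^ 2 = y' (algebraMap Λ (FN h ψ) (dch ψ (allP Q I) (cdr Q I)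
          (((g : SL(2,ℤ)) 0 0 : ℤ) : ZMod (cdr Q I)))) := by
        have h7 : w Φ ^ 2 * w Φ⁻¹ ^ 2 = 1 := by rw [← mul_pow, w_mul_inv, one_pow]
        calc w Φ⁻¹ ^ 2 = (y' (algebraMap Λ (FN h ψ) (dch ψ (allP Q I) (cdr Q I)
          (((g : SL(2,ℤ)) 0 0 : ℤ) : ZMod (cdr Q I)))) * w Φ ^ 2) * w Φ⁻¹ ^ 2 := by
              rw [h5, one_mul]
          _ = _ := by rw [mul_assoc, h7, mul_one]
      rw [twM_det, hT'det, h1, map_natCast, map_natCast, h6, mul_comm])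
    (ℓ₁ := l₀.1) l₀.2.1 hl₀L hl₀B
    (by
      have h1 := (ZMod.intCast_zmod_eq_zero_iff_dvd _ (cdr Q I)).2
        ((Int.natCast_dvd_natCast.2 (h.cdr_dvd.trans h.lvl_dvd)).trans hl₀)
      push_cast at h1
      exact sub_eq_zero.1 h1)
    (by
      intro h1
      have h2 : residue O' (y' (FN.X h ψ l₀)) = residue O' (y' ((l₀.1 : FN h ψ) + 1)) := by
        rw [← ht, h1, map_add, map_natCast, map_one, map_add, map_natCast, map_one]
      rw [hres', resFN_X, modE, if_neg hl₀Q, map_add, map_natCast, map_one, add_comm] at h2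
      exact hl₀τ h2)
    (g₀ := g₀) (h₀ := h₀)
    (by
      have h1 : w (g₀ * h₀ * g₀⁻¹ * h₀⁻¹)⁻¹ = 1 := by
        simp only [_root_.mul_inv_rev, inv_inv, map_mul]
        have e1 := w_mul_inv w g₀
        have e2 := w_mul_inv w h₀
        calc w h₀ * (w g₀ * (w h₀⁻¹ * w g₀⁻¹)) = (w g₀ * w g₀⁻¹) * (w h₀ * w h₀⁻¹) := by ring
          _ = 1 := by rw [e1, e2, one_mul]
      rw [twM_trace, h1, one_mul, hT'tr]
      intro h2
      have h3 : residue O' (y' (u (T (g₀ * h₀ * g₀⁻¹ * h₀⁻¹)).trace)) =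
          residue O' (y' 2) := by
        rw [h2, map_ofNat, map_ofNat]
      rw [hres', map_ofNat] at h3
      exact hne h3) hA hΦ
  -- conclusion
  rw [twM_trace, twM_det, hT'tr, hT'det] at key
  set a := y' (FN.X h ψ q) with ha
  have h2 : (w Φ * a) ^ 2 - y' (u (T Φ).trace) * (w Φ * a) + y' (u (T Φ).det) = 0 := by
    have e1 := w_mul_inv w Φ
    have e2 := congrArg (fun z => w Φ ^ 2 * z) key
    simp only [mul_zero] at e2
    linear_combination e2 + ((y' (u (T Φ).trace)) * w Φ * a - y' (u (T Φ).det) *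
      (1 + w Φ * w Φ⁻¹)) * e1
  have h3 := congrArg jO h2
  rw [map_add, map_sub, map_mul, map_pow, map_mul, map_zero, hy', hy', hw, hy', hy',
    e.y_algebraMap] at h3
  exact h3

end Main

end Fermat.Agent.TWDia
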