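import Fermat.Agent.TWDia.Cyc
import Fermat.Agent.TWDia.Dvr
import Fermat.Agent.TWCoh.Class

/-!
# The Galois character attached to the weights
-/

set_option autoImplicit false

noncomputable section

namespace Fermat.Agent.TWDia

open Matrix CongruenceSubgroup MvPolynomial Fermat.Agent.AnJac Fermat.Agent.TWCoh
open scoped MatrixGroups OnePoint

local notation "Qbar" => AlgebraicClosure ℚ
local notation "GQ" => Qbar ≃ₐ[ℚ] Qbar

section Def

variable {Λ : Type*} [CommRing Λ] (ψ : ∀ q : ℕ, DirichletCharacter Λ q) (s : Finset ℕ) (c : ℕ)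

/-- the product of the characters `ψ q`, `q ∈ s` -/
def wch : DirichletCharacter Λ c :=
  ∏ q ∈ s, if h : q ∣ c then DirichletCharacter.changeLevel h (ψ q) else 1

variable {ψ s c}

theorem wch_apply (hs : ∀ q ∈ s, q ∣ c) (u : (ZMod c)ˣ) :
    wch ψ s c (u : ZMod c) = ∏ q ∈ s, ψ q ((u : ZMod c).cast) := by
  rw [wch, prod_mulChar_apply _ _ u.isUnit]
  refine Finset.prod_congr rfl fun q hq => ?_
  rw [dif_pos (hs q hq), DirichletCharacter.changeLevel_eq_cast_of_dvd _ (hs q hq)]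

theorem wch_natCast (hs : ∀ q ∈ s, q ∣ c) {l : ℕ} (hl : IsUnit (l : ZMod c)) :
    wch ψ s c (l : ZMod c) = ws ψ s l := by
  obtain ⟨u, hu⟩ := hl
  rw [← hu, wch_apply hs, ws]
  refine Finset.prod_congr rfl fun q hq => ?_
  rw [hu]
  congr 1
  have h1 := map_natCast (ZMod.castHom (hs q hq) (ZMod q)) l
  exact h1

theorem dch_eq_sq (hs : ∀ q ∈ s, q ∣ c) (u : (ZMod c)ˣ) :
    dch ψ s c (u : ZMod c) = wch ψ s c (u : ZMod c) ^ 2 := by
  rw [dch, prod_mulChar_apply _ _ u.isUnit, wch, prod_mulChar_apply _ _ u.isUnit,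
    ← Finset.prod_pow]
  refine Finset.prod_congr rfl fun q hq => ?_
  rw [dif_pos (hs q hq), dif_pos (hs q hq), MulChar.pow_apply_coe]

theorem wch_pow {p : ℕ} (hψ : ∀ q ∈ s, ∃ e, ψ q ^ p ^ e = 1) :
    ∃ e, ∀ u : (ZMod c)ˣ, wch ψ s c (u : ZMod c) ^ p ^ e = 1 := by
  classical
  choose! e he using hψ
  refine ⟨∑ q ∈ s, e q, fun u => ?_⟩
  rw [wch, prod_mulChar_apply _ _ u.isUnit, ← Finset.prod_pow]
  refine Finset.prod_eq_one fun q hq => ?_
  have h1 : p ^ e q ∣ p ^ ∑ q ∈ s, e q :=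
    pow_dvd_pow p (Finset.single_le_sum (fun _ _ => Nat.zero_le _) hq)
  obtain ⟨d, hd⟩ := h1
  rw [hd, pow_mul]
  split_ifs with h
  · have h2 : (DirichletCharacter.changeLevel h (ψ q)) ^ p ^ e q = 1 := by
      rw [← map_pow, he q hq, map_one]
    rw [← MulChar.pow_apply_coe, h2, MulChar.one_apply_coe, one_pow]
  · rw [MulChar.one_apply_coe, one_pow, one_pow]

variable (ψ s c)

/-- the Galois character with values in `Λ` -/
def Wg [NeZero c] : GQ →* Λ :=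
  ((wch ψ s c : DirichletCharacter Λ c).toMonoidHom.comp (Units.coeHom (ZMod c))).comp (cycM c)

variable {ψ s c}

theorem Wg_apply [NeZero c] (g : GQ) : Wg ψ s c g = wch ψ s c ((cycM c g : (ZMod c)ˣ) : ZMod c) :=
  rfl

theorem Wg_frob [NeZero c] (hs : ∀ q ∈ s, q ∣ c) {A : ValuationSubring Qbar} {l : ℕ}
    (hl : l.Prime) (hA : A.LiesOverPrime l) {Φ : GQ} (hΦ : A.IsFrobeniusAt Φ l) (hc : ¬ l ∣ c) :
    Wg ψ s c Φ = ws ψ s l := by
  have h1 := cycM_frob hl hA hΦ hc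
  rw [Wg_apply, h1]
  exact wch_natCast hs (h1 ▸ (cycM c Φ).isUnit)

theorem Wg_inertia [NeZero c] (hs : ∀ r ∈ s, r ∣ c) (hpr : ∀ r ∈ s, r.Prime)
    {A : ValuationSubring Qbar} {q : ℕ} [NeZero q] (hq : q.Prime) (hqs : q ∈ s)
    (hA : A.LiesOverPrime q) {σ : GQ} (hσ : σ ∈ A.inertiaSubgroupIn ℚ) :
    Wg ψ s c σ = ψ q ((cycM q σ : (ZMod q)ˣ) : ZMod q) := by
  rw [Wg_apply, wch_apply hs, ← Finset.mul_prod_erase s _ hqs]
  have h1 : ∏ r ∈ s.erase q, ψ r (((cycM c σ : (ZMod c)ˣ) : ZMod c).cast) = 1 := by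
    refine Finset.prod_eq_one fun r hr => ?_
    have hrs := Finset.mem_of_mem_erase hr
    have hrq := Finset.ne_of_mem_erase hr
    have : NeZero r := ⟨(hpr r hrs).ne_zero⟩
    have h2 := cycM_cast (hs r hrs) σ
    rw [cycM_inertia hq hA hσ (c := r) (fun h => hrq
      ((Nat.prime_dvd_prime_iff_eq hq (hpr r hrs)).mp h).symm), Units.val_one] at h2
    have h3 : (((cycM c σ : (ZMod c)ˣ) : ZMod c).cast : ZMod r) = 1 := h2
    rw [h3, map_one]
  rw [h1, mul_one]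
  congr 1
  exact cycM_cast (hs q hqs) σ

end Def

end Fermat.Agent.TWDia
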